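import Fermat.Agent.LLL.Basic
import Mathlib.Algebra.BigOperators.Intervals
import Mathlib.LinearAlgebra.Dimension.Constructions

/-!
# The quality of a reduced basis

For `δ = 3/4` the Lovász condition gives `B j ≤ 2 ^ (i - j) B i` for `j ≤ i` and a size-reduced
basis then has `|b i|² ≤ 2 ^ i B i`, which gives the classical bounds against the successive minima
and the determinant.
-/

set_option autoImplicit false

noncomputable section

namespace FA.LLL

open Finset InnerProductSpace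
open scoped RealInnerProductSpace

variable {E : Type*} [NormedAddCommGroup E] [InnerProductSpace ℝ E] {n : ℕ} {b : Fin n → E}

theorem orthSq_le_double (hs : SizeReduced b)
    (hL : ∀ i j : Fin n, (i : ℕ) + 1 = j → (3 / 4 - mu b j i ^ 2) * orthSq b i ≤ orthSq b j) :
    ∀ (d : ℕ) (j i : Fin n), (j : ℕ) + d = i → orthSq b j ≤ 2 ^ d * orthSq b i := by
  intro d
  induction d with
  | zero =>
    intro j i h
    rw [Fin.ext (by simpa using h) (a := j) (b := i), pow_zero, one_mul]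
  | succ d ih =>
    intro j i h
    obtain ⟨m, hm⟩ : ∃ m : Fin n, (m : ℕ) = j + 1 := ⟨⟨j + 1, by omega⟩, rfl⟩
    have h1 := hL j m hm.symm
    have h2 : mu b m j ^ 2 ≤ 1 / 4 := by
      have := pow_le_pow_left₀ (abs_nonneg _) (hs m j (Fin.lt_def.2 (by omega))) 2
      rw [sq_abs] at this
      linarith
    have h3 := ih m i (by omega)
    have h4 : 0 ≤ orthSq b j := sq_nonneg _
    have h5 : 0 ≤ (1 / 4 - mu b m j ^ 2) * orthSq b j := mul_nonneg (sub_nonneg.2 h2) h4
    rw [pow_succ]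
    linarith

theorem sum_two_pow (i : ℕ) : ∑ j ∈ Finset.range i, (2 : ℝ) ^ (i - j) = 2 ^ (i + 1) - 2 := by
  induction i with
  | zero => norm_num
  | succ i ih =>
    rw [Finset.sum_range_succ, Nat.add_sub_cancel_left, Finset.sum_congr rfl
      (g := fun j => 2 * (2 : ℝ) ^ (i - j)) fun j hj => by
        rw [Nat.succ_sub (Finset.mem_range.1 hj).le, pow_succ'], ← Finset.mul_sum, ih, pow_succ']
    ring

theorem norm_sq_le_pow (hs : SizeReduced b)
    (hL : ∀ i j : Fin n, (i : ℕ) + 1 = j → (3 / 4 - mu b j i ^ 2) * orthSq b i ≤ orthSq b j)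
    (i : Fin n) : ‖b i‖ ^ 2 ≤ 2 ^ (i : ℕ) * orthSq b i := by
  have hsum : ∑ j ∈ Finset.Iio i, mu b i j ^ 2 * orthSq b j ≤
      ∑ j ∈ Finset.range (i : ℕ), 1 / 4 * 2 ^ ((i : ℕ) - j) * orthSq b i := by
    rw [← Nat.Iio_eq_range, ← Fin.map_valEmbedding_Iio, Finset.sum_map]
    refine Finset.sum_le_sum fun j hj => ?_
    rw [Finset.mem_Iio] at hj
    have h1 : mu b i j ^ 2 ≤ 1 / 4 := by
      have := pow_le_pow_left₀ (abs_nonneg _) (hs i j hj) 2
      rw [sq_abs] at this
      linarith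
    have h2 := orthSq_le_double hs hL ((i : ℕ) - j) j i (by
      have : (j : ℕ) < i := hj
      omega)
    rw [mul_assoc]
    exact mul_le_mul h1 h2 (sq_nonneg _) (by norm_num)
  rw [← Finset.sum_mul, ← Finset.mul_sum, sum_two_pow, pow_succ'] at hsum
  rw [norm_sq_eq]
  have h1 : (1 : ℝ) ≤ 2 ^ (i : ℕ) := one_le_pow₀ (by norm_num)
  have h2 : 0 ≤ (2 ^ (i : ℕ) - 1) * orthSq b i :=
    mul_nonneg (sub_nonneg.2 h1) (sq_nonneg _)
  linarith

theorem norm_sq_le_later (hs : SizeReduced b)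
    (hL : ∀ i j : Fin n, (i : ℕ) + 1 = j → (3 / 4 - mu b j i ^ 2) * orthSq b i ≤ orthSq b j)
    {i l : Fin n} (h : i ≤ l) : ‖b i‖ ^ 2 ≤ 2 ^ (l : ℕ) * orthSq b l := by
  have hil : (i : ℕ) ≤ l := h
  refine (norm_sq_le_pow hs hL i).trans ?_
  have h1 := mul_le_mul_of_nonneg_left (orthSq_le_double hs hL ((l : ℕ) - i) i l (by omega))
    (pow_nonneg (by norm_num : (0 : ℝ) ≤ 2) (i : ℕ))
  rwa [← mul_assoc, ← pow_add, Nat.add_sub_cancel' hil] at h1

theorem le_successive (hb : NonDeg b) (hs : SizeReduced b)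
    (hL : ∀ i j : Fin n, (i : ℕ) + 1 = j → (3 / 4 - mu b j i ^ 2) * orthSq b i ≤ orthSq b j)
    {m : ℕ} {x : Fin m → E} (hx : LinearIndependent ℝ x) (hmem : ∀ a, x a ∈ lattice b) {i : Fin n}
    (hi : (i : ℕ) < m) : ∃ a, ‖b i‖ ^ 2 ≤ 2 ^ (n - 1) * ‖x a‖ ^ 2 := by
  classical
  choose c hc using fun a => mem_lattice_iff.1 (hmem a)
  by_cases hlow : ∀ a l, i ≤ l → c a l = 0
  · exfalso
    have hsub : Set.range x ⊆
        Submodule.span ℝ (((Finset.Iio i).image b : Finset E) : Set E) := by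
      rintro _ ⟨a, rfl⟩
      rw [← hc a]
      refine Submodule.sum_mem _ fun l _ => ?_
      rcases lt_or_ge l i with h | h
      · exact Submodule.smul_mem _ _ (Submodule.subset_span
          (mem_coe.2 (mem_image_of_mem b (Finset.mem_Iio.2 h))))
      · rw [hlow a l h, Int.cast_zero, zero_smul]
        exact zero_mem _
    have h1 := Submodule.finrank_mono (Submodule.span_le.2 hsub)
    rw [finrank_span_eq_card hx, Fintype.card_fin] at h1
    have h2 := h1.trans ((finrank_span_finset_le_card _).trans card_image_le)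
    rw [Fin.card_Iio] at h2
    omega
  simp only [not_forall] at hlow
  obtain ⟨a, l, hil, hl⟩ := hlow
  obtain ⟨t, ht, htop, hle⟩ := exists_top hb (c := fun k => (c a k : ℝ))
    fun h0 => hl (Int.cast_eq_zero.1 (congrFun h0 l))
  rw [hc a] at hle
  have hit : i ≤ t := by
    by_contra hti
    rw [not_le] at hti
    exact hl (Int.cast_eq_zero.1 (htop l (hti.trans_le hil)))
  have h1 : (1 : ℝ) ≤ (c a t : ℝ) ^ 2 := by
    have h0 : 0 < c a t ^ 2 := by
      rw [← sq_abs]
      exact pow_pos (abs_pos.2 (Int.cast_ne_zero.1 ht)) 2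
    exact_mod_cast h0
  refine ⟨a, (norm_sq_le_later hs hL hit).trans ?_⟩
  refine mul_le_mul (pow_le_pow_right₀ one_le_two (by omega))
    ((le_mul_of_one_le_left (sq_nonneg _) h1).trans hle) (sq_nonneg _) (by positivity)

theorem sum_fin_val (n : ℕ) : ∑ i : Fin n, (i : ℕ) = n * (n - 1) / 2 := by
  rw [Fin.sum_univ_eq_sum_range (fun i => i) n, Finset.sum_range_id]

theorem prod_norm_sq_le (hs : SizeReduced b)
    (hL : ∀ i j : Fin n, (i : ℕ) + 1 = j → (3 / 4 - mu b j i ^ 2) * orthSq b i ≤ orthSq b j)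
    (g : Fin n → Fin n) (hg : ∀ i, g i ≤ i) :
    ∏ i, ‖b (g i)‖ ^ 2 ≤ 2 ^ (n * (n - 1) / 2) * (Matrix.gram ℝ b).det := by
  rw [det_gram, ← sum_fin_val, ← Finset.prod_pow_eq_pow_sum, ← Finset.prod_mul_distrib]
  exact Finset.prod_le_prod (fun i _ => sq_nonneg _) fun i _ => norm_sq_le_later hs hL (hg i)

end FA.LLL
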