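import Mathlib.Analysis.InnerProductSpace.GramSchmidtOrtho
import Mathlib.Analysis.InnerProductSpace.GramMatrix
import Mathlib.LinearAlgebra.Matrix.Block
import Mathlib.Algebra.Order.Round
import Mathlib.Order.Interval.Finset.Fin

/-!
# Gram–Schmidt data of a lattice basis and size reduction

For `b : Fin n → E` write `B i` for the squared length of the `i`-th Gram–Schmidt vector and `mu`
for the coefficients. The Gram determinant is `∏ B i`, a lattice vector with top coefficient `c` at
`l` has squared length at least `c² B l`, and some basis of the same lattice with the same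
Gram–Schmidt vectors has all `|mu| ≤ 1/2`.
-/

set_option autoImplicit false

noncomputable section

namespace FA.LLL

open Finset InnerProductSpace
open scoped RealInnerProductSpace

variable {E : Type*} [NormedAddCommGroup E] [InnerProductSpace ℝ E] {n : ℕ}

/-- The Gram–Schmidt vectors. -/
def orth (b : Fin n → E) : Fin n → E := gramSchmidt ℝ b

/-- The squared lengths of the Gram–Schmidt vectors. -/
def orthSq (b : Fin n → E) (i : Fin n) : ℝ := ‖orth b i‖ ^ 2

/-- The coefficient of `orth b j` in `b i`. -/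
def mu (b : Fin n → E) (i j : Fin n) : ℝ := ⟪orth b j, b i⟫ / orthSq b j

/-- No Gram–Schmidt vector vanishes. -/
def NonDeg (b : Fin n → E) : Prop := ∀ i, orth b i ≠ 0

/-- The lattice spanned by `b`. -/
def lattice (b : Fin n → E) : Submodule ℤ E := Submodule.span ℤ (Set.range b)

theorem orth_orth (b : Fin n → E) {i j : Fin n} (h : i ≠ j) : ⟪orth b i, orth b j⟫ = 0 :=
  gramSchmidt_orthogonal ℝ b h

theorem orth_decomp (b : Fin n → E) (i : Fin n) :
    b i = orth b i + ∑ j ∈ Finset.Iio i, mu b i j • orth b j := by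
  conv_lhs => rw [gramSchmidt_def'' ℝ b i]
  rfl

theorem span_orth_Iio (b : Fin n → E) (i : Fin n) :
    Submodule.span ℝ (orth b '' Set.Iio i) = Submodule.span ℝ (b '' Set.Iio i) :=
  span_gramSchmidt_Iio ℝ b i

theorem sub_orth_mem (b : Fin n → E) (i : Fin n) :
    b i - orth b i ∈ Submodule.span ℝ (orth b '' Set.Iio i) := by
  conv => arg 2; rw [orth_decomp b i, add_sub_cancel_left]
  exact Submodule.sum_mem _ fun j hj => Submodule.smul_mem _ _
    (Submodule.subset_span ⟨j, Finset.mem_Iio.1 hj, rfl⟩)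

theorem inner_eq_zero_of_span {R : Type*} [Semiring R] [Module R E] [SMulCommClass R ℝ E]
    {v x : E} {S : Set E} (hsmul : ∀ (c : R) y, ⟪v, y⟫ = 0 → ⟪v, c • y⟫ = 0)
    (h : ∀ y ∈ S, ⟪v, y⟫ = 0) (hx : x ∈ Submodule.span R S) : ⟪v, x⟫ = 0 := by
  induction hx using Submodule.span_induction with
  | mem y hy => exact h y hy
  | zero => exact inner_zero_right v
  | add a c _ _ ha hc => rw [inner_add_right, ha, hc, add_zero]
  | smul c y _ hy => exact hsmul c y hy

theorem inner_span_real {v x : E} {S : Set E} (h : ∀ y ∈ S, ⟪v, y⟫ = 0)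
    (hx : x ∈ Submodule.span ℝ S) : ⟪v, x⟫ = 0 :=
  inner_eq_zero_of_span (R := ℝ) (fun c y hy => by rw [real_inner_smul_right, hy, mul_zero]) h hx

/-- The characterisation of the Gram–Schmidt vectors. -/
theorem orth_eq_of {b g : Fin n → E} (hg : ∀ i j, i ≠ j → ⟪g i, g j⟫ = 0)
    (hspan : ∀ i, b i - g i ∈ Submodule.span ℝ (g '' Set.Iio i)) : orth b = g := by
  funext i
  induction i using WellFoundedLT.induction with
  | _ i ih =>
    have himg : orth b '' Set.Iio i = g '' Set.Iio i := Set.image_congr fun j hj => ih j hj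
    have hx : g i - orth b i ∈ Submodule.span ℝ (g '' Set.Iio i) := by
      have h1 := Submodule.sub_mem _ (himg ▸ sub_orth_mem b i) (hspan i)
      rwa [sub_sub_sub_cancel_left] at h1
    have h1 : ⟪g i, g i - orth b i⟫ = 0 := inner_span_real (fun y hy => by
      obtain ⟨j, hj, rfl⟩ := hy
      exact hg i j (ne_of_gt hj)) hx
    have h2 : ⟪orth b i, g i - orth b i⟫ = 0 := inner_span_real (fun y hy => by
      obtain ⟨j, hj, rfl⟩ := hy
      rw [← ih j hj]
      exact orth_orth b (ne_of_gt hj)) hx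
    have h3 : ⟪g i - orth b i, g i - orth b i⟫ = 0 := by rw [inner_sub_left, h1, h2, sub_zero]
    exact (sub_eq_zero.1 (inner_self_eq_zero.1 h3)).symm

theorem orthSq_pos {b : Fin n → E} (hb : NonDeg b) (i : Fin n) : 0 < orthSq b i :=
  pow_pos (norm_pos_iff.2 (hb i)) 2

/-- The full coefficient matrix. -/
def coeff (b : Fin n → E) (i j : Fin n) : ℝ := if j < i then mu b i j else if j = i then 1 else 0

theorem decomp_univ (b : Fin n → E) (i : Fin n) : b i = ∑ j, coeff b i j • orth b j := by
  conv_lhs => rw [orth_decomp b i]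
  rw [← Finset.sum_subset (Finset.subset_univ (insert i (Finset.Iio i))) fun j _ hj => by
      rw [Finset.mem_insert, Finset.mem_Iio, not_or] at hj
      rw [coeff, if_neg hj.2, if_neg hj.1, zero_smul],
    Finset.sum_insert Finset.notMem_Iio_self]
  refine congrArg₂ (· + ·) (by simp [coeff]) (Finset.sum_congr rfl fun j hj => ?_)
  rw [coeff, if_pos (Finset.mem_Iio.1 hj)]

theorem inner_orth (b : Fin n → E) (i j : Fin n) :
    ⟪orth b j, b i⟫ = coeff b i j * orthSq b j := by
  conv_lhs => rw [decomp_univ b i]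
  rw [inner_sum, Finset.sum_eq_single j (fun l _ hl => by
      rw [real_inner_smul_right, orth_orth b hl.symm, mul_zero])
    (fun h => absurd (Finset.mem_univ j) h), real_inner_smul_right, real_inner_self_eq_norm_sq]
  rfl

theorem gram_eq (b : Fin n → E) :
    Matrix.gram ℝ b = Matrix.of (coeff b) * Matrix.diagonal (orthSq b) *
      (Matrix.of (coeff b)).transpose := by
  ext i k
  rw [Matrix.gram_apply, Matrix.mul_apply]
  conv_lhs => rw [decomp_univ b k]
  rw [inner_sum]
  refine Finset.sum_congr rfl fun l _ => ?_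
  rw [real_inner_smul_right, real_inner_comm, inner_orth, Matrix.mul_diagonal,
    Matrix.transpose_apply, Matrix.of_apply, Matrix.of_apply]
  ring

theorem det_gram (b : Fin n → E) : (Matrix.gram ℝ b).det = ∏ i, orthSq b i := by
  have h : (Matrix.of (coeff b)).det = 1 := by
    rw [Matrix.det_of_isLowerTriangular _ fun i j hij => ?_]
    · simp [coeff]
    · have hij' : i < j := hij
      rw [Matrix.of_apply, coeff, if_neg hij'.not_gt, if_neg hij'.ne']
  rw [gram_eq, Matrix.det_mul, Matrix.det_mul, Matrix.det_transpose, h, Matrix.det_diagonal]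
  ring

theorem norm_sq_eq (b : Fin n → E) (i : Fin n) :
    ‖b i‖ ^ 2 = orthSq b i + ∑ j ∈ Finset.Iio i, mu b i j ^ 2 * orthSq b j := by
  rw [← real_inner_self_eq_norm_sq, ← Matrix.gram_apply (𝕜 := ℝ) b, gram_eq, Matrix.mul_apply,
    ← Finset.sum_subset (Finset.subset_univ (insert i (Finset.Iio i))) fun j _ hj => by
      rw [Finset.mem_insert, Finset.mem_Iio, not_or] at hj
      simp [coeff, hj.1, hj.2],
    Finset.sum_insert Finset.notMem_Iio_self]
  refine congrArg₂ (· + ·) (by simp [coeff]) (Finset.sum_congr rfl fun j hj => ?_)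
  rw [Finset.mem_Iio] at hj
  simp [coeff, hj]
  ring

theorem orthSq_le_norm_sq (b : Fin n → E) (i : Fin n) : orthSq b i ≤ ‖b i‖ ^ 2 := by
  rw [norm_sq_eq b i, le_add_iff_nonneg_right]
  exact Finset.sum_nonneg fun j _ => mul_nonneg (sq_nonneg _) (sq_nonneg _)

/-- The top coefficient of a combination bounds its length from below. -/
theorem exists_top {b : Fin n → E} (hb : NonDeg b) {c : Fin n → ℝ} (hc : c ≠ 0) :
    ∃ l, c l ≠ 0 ∧ (∀ m, l < m → c m = 0) ∧
      c l ^ 2 * orthSq b l ≤ ‖∑ m, c m • b m‖ ^ 2 := by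
  classical
  obtain ⟨l₀, hl₀⟩ := Function.ne_iff.1 hc
  obtain ⟨l, hl, hmax⟩ := Finset.exists_max_image (univ.filter fun m => c m ≠ 0) id
    ⟨l₀, by simpa using hl₀⟩
  rw [mem_filter] at hl
  have htop : ∀ m, l < m → c m = 0 := fun m hm => by
    by_contra h
    exact absurd (hmax m (by simpa using h)) (not_le.2 hm)
  refine ⟨l, hl.2, htop, ?_⟩
  obtain ⟨x, hx⟩ : ∃ x, x = ∑ m, c m • b m := ⟨_, rfl⟩
  have hinner : ⟪orth b l, x⟫ = c l * orthSq b l := by
    rw [hx, inner_sum, Finset.sum_eq_single l (fun m _ hm => ?_)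
      (fun h => absurd (mem_univ l) h), real_inner_smul_right, inner_orth, coeff,
      if_neg (lt_irrefl l), if_pos rfl, one_mul]
    rw [real_inner_smul_right, inner_orth]
    rcases lt_or_gt_of_ne hm with h | h
    · rw [coeff, if_neg h.not_gt, if_neg h.ne', zero_mul, mul_zero]
    · rw [htop m h, zero_mul]
  have hB := orthSq_pos hb l
  have hcs : ⟪orth b l, x⟫ ^ 2 ≤ orthSq b l * ‖x‖ ^ 2 := by
    rw [orthSq, ← mul_pow, ← sq_abs]
    exact pow_le_pow_left₀ (abs_nonneg _) (abs_real_inner_le_norm _ _) 2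
  rw [hinner] at hcs
  rw [← hx]
  refine le_of_mul_le_mul_left ?_ hB
  linarith [sq (c l * orthSq b l)]

theorem NonDeg.linearIndependent {b : Fin n → E} (hb : NonDeg b) : LinearIndependent ℝ b := by
  rw [Fintype.linearIndependent_iff]
  intro c hc i
  by_contra h
  obtain ⟨l, hl, -, hle⟩ := exists_top hb (c := c) fun h0 => h (congrFun h0 i)
  rw [hc, norm_zero, zero_pow two_ne_zero] at hle
  exact hle.not_gt (mul_pos (by positivity) (orthSq_pos hb l))

theorem nonDeg_of_linearIndependent {b : Fin n → E} (hb : LinearIndependent ℝ b) : NonDeg b :=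
  fun i => gramSchmidt_ne_zero i hb

theorem mem_lattice_iff {b : Fin n → E} {x : E} :
    x ∈ lattice b ↔ ∃ c : Fin n → ℤ, ∑ i, (c i : ℝ) • b i = x := by
  rw [lattice, Submodule.mem_span_range_iff_exists_fun]
  simp only [Int.cast_smul_eq_zsmul]

omit [InnerProductSpace ℝ E] in
theorem self_mem_lattice (b : Fin n → E) (i : Fin n) : b i ∈ lattice b :=
  Submodule.subset_span ⟨i, rfl⟩

/-- All coefficients at most a half. -/
def SizeReduced (b : Fin n → E) : Prop := ∀ i j, j < i → |mu b i j| ≤ 1 / 2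

theorem exists_reduce {b : Fin n → E} (hb : NonDeg b) :
    ∀ (k : ℕ) (v : E), ∃ z ∈ Submodule.span ℤ (b '' {l : Fin n | (l : ℕ) < k}),
      ∀ j : Fin n, (j : ℕ) < k → |⟪orth b j, v - z⟫ / orthSq b j| ≤ 1 / 2 := by
  intro k
  induction k with
  | zero => exact fun v => ⟨0, zero_mem _, fun j hj => absurd hj (Nat.not_lt_zero _)⟩
  | succ k ih =>
    intro v
    have hmono : b '' {l : Fin n | (l : ℕ) < k} ⊆ b '' {l : Fin n | (l : ℕ) < k + 1} :=
      Set.image_mono fun l hl => Nat.lt_succ_of_lt hl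
    by_cases hk : k < n
    · obtain ⟨c, hc⟩ : ∃ c : ℤ, c = round (⟪orth b ⟨k, hk⟩, v⟫ / orthSq b ⟨k, hk⟩) := ⟨_, rfl⟩
      obtain ⟨z, hz, hzc⟩ := ih (v - c • b ⟨k, hk⟩)
      refine ⟨z + c • b ⟨k, hk⟩, add_mem (Submodule.span_mono hmono hz)
        (Submodule.smul_mem _ c (Submodule.subset_span ⟨_, Nat.lt_succ_self k, rfl⟩)), ?_⟩
      intro j hj
      rw [show v - (z + c • b ⟨k, hk⟩) = v - c • b ⟨k, hk⟩ - z by abel]
      rcases Nat.lt_succ_iff_lt_or_eq.1 hj with h | h
      · exact hzc j h
      · obtain rfl : j = ⟨k, hk⟩ := Fin.ext h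
        have hz0 : ⟪orth b ⟨k, hk⟩, z⟫ = 0 := by
          refine inner_eq_zero_of_span (R := ℤ) (fun a y hy => ?_) (fun y hy => ?_) hz
          · rw [← Int.cast_smul_eq_zsmul ℝ, real_inner_smul_right, hy, mul_zero]
          · obtain ⟨l, hl, rfl⟩ := hy
            exact gramSchmidt_inv_triangular ℝ b (show l < ⟨k, hk⟩ from hl)
        rw [inner_sub_right, inner_sub_right, hz0, sub_zero, ← Int.cast_smul_eq_zsmul ℝ c,
          real_inner_smul_right, inner_orth b ⟨k, hk⟩ ⟨k, hk⟩, coeff, if_neg (lt_irrefl _),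
          if_pos rfl, one_mul, sub_div, mul_div_assoc, div_self (orthSq_pos hb _).ne', mul_one,
          hc]
        exact abs_sub_round _
    · obtain ⟨z, hz, hzc⟩ := ih v
      exact ⟨z, Submodule.span_mono hmono hz, fun j _ => hzc j (by omega)⟩

/-- **Size reduction.** -/
theorem exists_sizeReduced {b : Fin n → E} (hb : NonDeg b) :
    ∃ c : Fin n → E, orth c = orth b ∧ SizeReduced c ∧ lattice c = lattice b := by
  choose z hz hzc using fun i : Fin n => exists_reduce hb (i : ℕ) (b i)
  have hz' : ∀ i, z i ∈ Submodule.span ℝ (orth b '' Set.Iio i) := fun i => by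
    rw [span_orth_Iio]
    exact Submodule.span_le_restrictScalars ℤ ℝ _ (hz i)
  have hlat : ∀ i, z i ∈ lattice b := fun i =>
    Submodule.span_mono (Set.image_subset_range _ _) (hz i)
  obtain ⟨c, hc⟩ : ∃ c : Fin n → E, ∀ i, c i = b i - z i := ⟨_, fun _ => rfl⟩
  have horth : orth c = orth b := orth_eq_of (fun i j h => orth_orth b h) fun i => by
    rw [hc, sub_right_comm]
    exact sub_mem (sub_orth_mem b i) (hz' i)
  refine ⟨c, horth, fun i j hij => ?_, le_antisymm ?_ ?_⟩
  · rw [mu, orthSq, horth, hc]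
    exact hzc i j hij
  · refine Submodule.span_le.2 ?_
    rintro _ ⟨i, rfl⟩
    rw [hc]
    exact sub_mem (self_mem_lattice b i) (hlat i)
  · refine Submodule.span_le.2 ?_
    rintro _ ⟨i, rfl⟩
    induction i using WellFoundedLT.induction with
    | _ i ih =>
      have h1 : z i ∈ lattice c := by
        refine (Submodule.span_le.2 ?_) (hz i)
        rintro _ ⟨l, hl, rfl⟩
        exact ih l hl
      have h2 := add_mem (self_mem_lattice c i) h1
      rwa [hc, sub_add_cancel] at h2

end FA.LLL
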