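import Fermat.Agent.LLL.Basic
import Fermat.Agent.Reduction.Hermite
import Mathlib.Algebra.Order.Archimedean.Basic

/-!
# The exchange step and termination

Exchanging an adjacent pair that fails the Lovász condition multiplies the potential
`∏ B l ^ (n - l)`, a product of Gram determinants of sublattices, by a factor below `δ`. Hermite's
inequality bounds it below on all bases of a lattice, and by `1` if the Gram matrix is integral, so
the process stops at a reduced basis.
-/

set_option autoImplicit false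

noncomputable section

namespace FA.LLL

open Finset InnerProductSpace
open scoped RealInnerProductSpace

variable {E : Type*} [NormedAddCommGroup E] [InnerProductSpace ℝ E] {n : ℕ}

/-- The Lovász condition at every adjacent pair. -/
def Lovasz (δ : ℝ) (b : Fin n → E) : Prop :=
  ∀ i j : Fin n, (i : ℕ) + 1 = j → (δ - mu b j i ^ 2) * orthSq b i ≤ orthSq b j

/-- `δ`-reduced: size-reduced with the Lovász condition. -/
def IsReduced (δ : ℝ) (b : Fin n → E) : Prop := SizeReduced b ∧ Lovasz δ b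

/-- One step: a size reduction, then the exchange of a failing adjacent pair. -/
def Step (δ : ℝ) (b b' : Fin n → E) : Prop :=
  ∃ (c : Fin n → E) (i j : Fin n), orth c = orth b ∧ SizeReduced c ∧ lattice c = lattice b ∧
    (i : ℕ) + 1 = j ∧ orthSq c j < (δ - mu c j i ^ 2) * orthSq c i ∧ b' = c ∘ Equiv.swap i j

theorem Iio_succ {i j : Fin n} (h : (i : ℕ) + 1 = j) :
    Finset.Iio j = insert i (Finset.Iio i) := by
  ext l
  simp only [Finset.mem_Iio, Finset.mem_insert, Fin.lt_def, Fin.ext_iff]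
  omega

/-- The Gram–Schmidt data after an exchange. -/
theorem orth_swap {c : Fin n → E} (hc : NonDeg c) {i j : Fin n} (hij : (i : ℕ) + 1 = j) :
    let B' := orthSq c j + mu c j i ^ 2 * orthSq c i
    0 < B' ∧ orthSq (c ∘ Equiv.swap i j) i = B' ∧
      orthSq (c ∘ Equiv.swap i j) j = orthSq c i * orthSq c j / B' ∧
      ∀ l, l ≠ i → l ≠ j → orth (c ∘ Equiv.swap i j) l = orth c l := by
  intro B'
  have hlt : i < j := Fin.lt_def.2 (by omega)
  have hne : i ≠ j := hlt.ne
  have hBi := orthSq_pos hc i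
  have hBj := orthSq_pos hc j
  have hB' : 0 < B' := add_pos_of_pos_of_nonneg hBj (mul_nonneg (sq_nonneg _) hBi.le)
  obtain ⟨μ, hμ⟩ : ∃ μ, μ = mu c j i := ⟨_, rfl⟩
  obtain ⟨ν, hν⟩ : ∃ ν, ν = μ * orthSq c i / B' := ⟨_, rfl⟩
  obtain ⟨u, hu⟩ : ∃ u, u = orth c j + μ • orth c i := ⟨_, rfl⟩
  obtain ⟨w, hw⟩ : ∃ w, w = orth c i - ν • u := ⟨_, rfl⟩
  obtain ⟨g, hg⟩ : ∃ g : Fin n → E,
      g = fun l => if l = i then u else if l = j then w else orth c l := ⟨_, rfl⟩
  have hgi : g i = u := by simp [hg]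
  have hgj : g j = w := by simp [hg, hne.symm]
  have hgl : ∀ l, l ≠ i → l ≠ j → g l = orth c l := fun l h1 h2 => by simp [hg, h1, h2]
  have hii : ⟪orth c i, orth c i⟫ = orthSq c i := real_inner_self_eq_norm_sq _
  have hjj : ⟪orth c j, orth c j⟫ = orthSq c j := real_inner_self_eq_norm_sq _
  have huu : ⟪u, u⟫ = B' := by
    simp only [hu, inner_add_left, inner_add_right, real_inner_smul_left, real_inner_smul_right,
      orth_orth c hne, orth_orth c hne.symm, hii, hjj]
    simp only [B', ← hμ]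
    ring
  have hui : ⟪u, orth c i⟫ = μ * orthSq c i := by
    simp only [hu, inner_add_left, real_inner_smul_left, orth_orth c hne.symm, hii, zero_add]
  have huw : ⟪u, w⟫ = 0 := by
    rw [hw, inner_sub_right, real_inner_smul_right, huu, hui, hν, div_mul_cancel₀ _ hB'.ne',
      sub_self]
  have hperp : ∀ l, l ≠ i → l ≠ j → ⟪u, orth c l⟫ = 0 ∧ ⟪w, orth c l⟫ = 0 := fun l h1 h2 => by
    have h : ⟪u, orth c l⟫ = 0 := by
      rw [hu, inner_add_left, real_inner_smul_left, orth_orth c h1.symm, orth_orth c h2.symm]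
      ring
    refine ⟨h, ?_⟩
    rw [hw, inner_sub_left, real_inner_smul_left, h, orth_orth c h1.symm]
    ring
  have horth : orth (c ∘ Equiv.swap i j) = g := by
    refine orth_eq_of (fun a b hab => ?_) fun l => ?_
    · by_cases ha : a = i
      · subst ha
        by_cases hb : b = j
        · subst hb; rw [hgi, hgj, huw]
        · rw [hgi, hgl b hab.symm hb, (hperp b hab.symm hb).1]
      · by_cases ha' : a = j
        · subst ha'
          by_cases hb : b = i
          · subst hb; rw [hgi, hgj, real_inner_comm, huw]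
          · rw [hgj, hgl b hb hab.symm, (hperp b hb hab.symm).2]
        · rw [hgl a ha ha']
          by_cases hb : b = i
          · subst hb; rw [hgi, real_inner_comm, (hperp a ha ha').1]
          · by_cases hb' : b = j
            · subst hb'; rw [hgj, real_inner_comm, (hperp a ha ha').2]
            · rw [hgl b hb hb', orth_orth c hab]
    have hbase : ∀ m, m < i → orth c m ∈ g '' Set.Iio i := fun m hm =>
      ⟨m, hm, hgl m hm.ne (hm.trans hlt).ne⟩
    have hlow : Submodule.span ℝ (orth c '' Set.Iio i) ≤ Submodule.span ℝ (g '' Set.Iio i) :=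
      Submodule.span_mono fun y hy => by
        obtain ⟨m, hm, rfl⟩ := hy
        exact hbase m hm
    have hup : Submodule.span ℝ (g '' Set.Iio i) ≤ Submodule.span ℝ (g '' Set.Iio j) :=
      Submodule.span_mono (Set.image_mono (Set.Iio_subset_Iio hlt.le))
    have hu_mem : u ∈ Submodule.span ℝ (g '' Set.Iio j) :=
      Submodule.subset_span ⟨i, hlt, hgi⟩
    by_cases h1 : l = i
    · subst h1
      rw [hgi, Function.comp_apply, Equiv.swap_apply_left]
      refine hlow ?_
      conv => arg 2; rw [orth_decomp c j, Iio_succ hij, Finset.sum_insert Finset.notMem_Iio_self,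
        ← hμ, hu]
      rw [show orth c j + (μ • orth c l + ∑ m ∈ Finset.Iio l, mu c j m • orth c m) -
          (orth c j + μ • orth c l) = ∑ m ∈ Finset.Iio l, mu c j m • orth c m by abel]
      exact Submodule.sum_mem _ fun m hm => Submodule.smul_mem _ _
        (Submodule.subset_span ⟨m, Finset.mem_Iio.1 hm, rfl⟩)
    by_cases h2 : l = j
    · subst h2
      rw [hgj, Function.comp_apply, Equiv.swap_apply_right, hw,
        show c i - (orth c i - ν • u) = (c i - orth c i) + ν • u by abel]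
      exact add_mem (hup (hlow (sub_orth_mem c i))) (Submodule.smul_mem _ ν hu_mem)
    rw [hgl l h1 h2, Function.comp_apply, Equiv.swap_apply_of_ne_of_ne h1 h2]
    refine Submodule.span_le.2 ?_ (sub_orth_mem c l)
    rintro _ ⟨m, hm, rfl⟩
    rw [Set.mem_Iio] at hm
    have hsub : ∀ a, a < l → g a ∈ Submodule.span ℝ (g '' Set.Iio l) := fun a ha =>
      Submodule.subset_span ⟨a, ha, rfl⟩
    by_cases hjl : j < l
    · have mu' : u ∈ Submodule.span ℝ (g '' Set.Iio l) := hgi ▸ hsub i (hlt.trans hjl)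
      have mw : w ∈ Submodule.span ℝ (g '' Set.Iio l) := hgj ▸ hsub j hjl
      have mi : orth c i ∈ Submodule.span ℝ (g '' Set.Iio l) := by
        rw [show orth c i = w + ν • u by rw [hw]; abel]
        exact add_mem mw (Submodule.smul_mem _ ν mu')
      by_cases hmi : m = i
      · exact hmi ▸ mi
      by_cases hmj : m = j
      · rw [hmj, show orth c j = u - μ • orth c i by rw [hu]; abel]
        exact sub_mem mu' (Submodule.smul_mem _ μ mi)
      exact hgl m hmi hmj ▸ hsub m hm
    · have hli : l < i := Fin.lt_def.2 (by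
        have := Fin.val_ne_of_ne h1
        have := Fin.val_ne_of_ne h2
        rw [Fin.lt_def] at hjl
        omega)
      exact hgl m (hm.trans hli).ne ((hm.trans hli).trans hlt).ne ▸ hsub m hm
  refine ⟨hB', ?_, ?_, fun l h1 h2 => by rw [horth, hgl l h1 h2]⟩
  · rw [orthSq, horth, hgi, ← real_inner_self_eq_norm_sq, huu]
  · rw [orthSq, horth, hgj, ← real_inner_self_eq_norm_sq, hw]
    simp only [inner_sub_left, inner_sub_right, real_inner_smul_left, real_inner_smul_right, huu,
      hui, real_inner_comm u (orth c i), hii, hν]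
    have : B' = orthSq c j + μ ^ 2 * orthSq c i := by simp only [B', hμ]
    field_simp
    rw [this]
    ring

/-- The potential. -/
def potential (b : Fin n → E) : ℝ := ∏ l, orthSq b l ^ (n - (l : ℕ))

theorem potential_pos {b : Fin n → E} (hb : NonDeg b) : 0 < potential b :=
  Finset.prod_pos fun l _ => pow_pos (orthSq_pos hb l) _

theorem potential_congr {b c : Fin n → E} (h : orth c = orth b) : potential c = potential b := by
  simp only [potential, orthSq, h]

theorem nonDeg_congr {b c : Fin n → E} (h : orth c = orth b) (hb : NonDeg b) : NonDeg c :=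
  fun i => h ▸ hb i

theorem swap_spec {δ : ℝ} {c : Fin n → E} (hc : NonDeg c) {i j : Fin n} (hij : (i : ℕ) + 1 = j)
    (hfail : orthSq c j < (δ - mu c j i ^ 2) * orthSq c i) :
    NonDeg (c ∘ Equiv.swap i j) ∧ lattice (c ∘ Equiv.swap i j) = lattice c ∧
      potential (c ∘ Equiv.swap i j) ≤ δ * potential c := by
  obtain ⟨hB', hi, hj, hother⟩ := orth_swap hc hij
  obtain ⟨B', hB'def⟩ : ∃ B', B' = orthSq c j + mu c j i ^ 2 * orthSq c i := ⟨_, rfl⟩
  rw [← hB'def] at hB' hi hj
  have hne : i ≠ j := Fin.ne_of_val_ne (by omega)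
  have hBi := orthSq_pos hc i
  have hBj := orthSq_pos hc j
  refine ⟨fun l => ?_, ?_, ?_⟩
  · have hpos : 0 < orthSq (c ∘ Equiv.swap i j) l := by
      by_cases h1 : l = i
      · rw [h1, hi]; exact hB'
      by_cases h2 : l = j
      · rw [h2, hj]; exact div_pos (mul_pos hBi hBj) hB'
      rw [orthSq, hother l h1 h2]
      exact orthSq_pos hc l
    intro h0
    rw [orthSq, h0, norm_zero, zero_pow two_ne_zero] at hpos
    exact lt_irrefl _ hpos
  · rw [lattice, lattice, (Equiv.swap i j).surjective.range_comp]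
  have hjmem : j ∈ (univ : Finset (Fin n)).erase i := mem_erase.2 ⟨hne.symm, mem_univ j⟩
  rw [potential, potential, ← mul_prod_erase _ _ (mem_univ i), ← mul_prod_erase _ _ hjmem,
    ← mul_prod_erase (univ : Finset (Fin n)) _ (mem_univ i), ← mul_prod_erase _ _ hjmem,
    Finset.prod_congr rfl (g := fun l => orthSq c l ^ (n - (l : ℕ))) fun l hl => by
      rw [mem_erase, mem_erase] at hl
      simp only [orthSq, hother l hl.2.1 hl.1], hi, hj]
  obtain ⟨R, hR⟩ : ∃ R, R = ∏ l ∈ ((univ : Finset (Fin n)).erase i).erase j,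
      orthSq c l ^ (n - (l : ℕ)) := ⟨_, rfl⟩
  have hR0 : 0 ≤ R := hR ▸ prod_nonneg fun l _ => pow_nonneg (orthSq_pos hc l).le _
  rw [← hR]
  obtain ⟨k, hk⟩ : ∃ k, n - (i : ℕ) = k + 1 := ⟨n - i - 1, by omega⟩
  have hk' : n - (j : ℕ) = k := by omega
  rw [hk, hk', div_pow, mul_pow, pow_succ, pow_succ]
  have hle : B' ≤ δ * orthSq c i := by rw [hB'def]; linarith
  have : B' ^ k * B' * (orthSq c i ^ k * orthSq c j ^ k / B' ^ k * R) =
      B' * (orthSq c i ^ k * orthSq c j ^ k * R) := by
    field_simp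
  rw [this]
  calc B' * (orthSq c i ^ k * orthSq c j ^ k * R)
      ≤ δ * orthSq c i * (orthSq c i ^ k * orthSq c j ^ k * R) := by
        refine mul_le_mul_of_nonneg_right hle ?_
        positivity
    _ = δ * (orthSq c i ^ k * orthSq c i * (orthSq c j ^ k * R)) := by ring

theorem step_spec {δ : ℝ} {b b' : Fin n → E} (hb : NonDeg b) (h : Step δ b b') :
    NonDeg b' ∧ lattice b' = lattice b ∧ potential b' ≤ δ * potential b := by
  obtain ⟨c, i, j, horth, -, hlat, hij, hfail, rfl⟩ := h
  obtain ⟨h1, h2, h3⟩ := swap_spec (nonDeg_congr horth hb) hij hfail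
  exact ⟨h1, h2.trans hlat, potential_congr horth ▸ h3⟩

theorem orth_prefix (b : Fin n → E) {m : ℕ} (hm : m ≤ n) :
    orth (b ∘ Fin.castLE hm) = orth b ∘ Fin.castLE hm := by
  refine orth_eq_of (fun a c hac => orth_orth b fun h => hac (Fin.castLE_injective hm h))
    fun l => ?_
  refine Submodule.span_mono ?_ (sub_orth_mem b (Fin.castLE hm l))
  rintro _ ⟨a, ha, rfl⟩
  have ha' : (a : ℕ) < l := ha
  exact ⟨⟨a, ha'.trans l.isLt⟩, ha', congrArg (orth b) (Fin.ext rfl)⟩

theorem det_gram_prefix (b : Fin n → E) (k : Fin n) :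
    (Matrix.gram ℝ (b ∘ Fin.castLE (Nat.succ_le_of_lt k.isLt))).det =
      ∏ l ∈ Finset.Iic k, orthSq b l := by
  rw [det_gram]
  refine Finset.prod_bij (fun a _ => Fin.castLE (Nat.succ_le_of_lt k.isLt) a) (fun a _ => ?_)
    (fun a _ c _ h => Fin.castLE_injective _ h) (fun l hl => ?_) fun a _ => ?_
  · rw [Finset.mem_Iic, Fin.le_def, Fin.val_castLE]
    exact Nat.le_of_lt_succ a.isLt
  · exact ⟨⟨l, Nat.lt_succ_of_le (Fin.le_def.1 (Finset.mem_Iic.1 hl))⟩, mem_univ _, Fin.ext rfl⟩
  · rw [orthSq, orth_prefix]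
    rfl

theorem potential_eq (b : Fin n → E) :
    potential b = ∏ k : Fin n,
      (Matrix.gram ℝ (b ∘ Fin.castLE (Nat.succ_le_of_lt k.isLt))).det := by
  simp only [det_gram_prefix]
  rw [Finset.prod_comm' (s' := fun l => Finset.Ici l) (t' := univ) (fun k l => by simp)]
  exact Finset.prod_congr rfl fun l _ => by rw [prod_const, Fin.card_Ici]

theorem exists_lattice_min {b : Fin n → E} (hb : NonDeg b) :
    ∃ r : ℝ, 0 < r ∧ ∀ x ∈ lattice b, x ≠ 0 → r ≤ ‖x‖ ^ 2 := by
  rcases isEmpty_or_nonempty (Fin n) with h | h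
  · refine ⟨1, one_pos, fun x hx hx0 => absurd ?_ hx0⟩
    obtain ⟨c, rfl⟩ := mem_lattice_iff.1 hx
    simp
  obtain ⟨l₀, -, hl₀⟩ := Finset.exists_min_image univ (orthSq b) univ_nonempty
  refine ⟨orthSq b l₀, orthSq_pos hb l₀, fun x hx hx0 => ?_⟩
  obtain ⟨c, rfl⟩ := mem_lattice_iff.1 hx
  obtain ⟨l, hl, -, hle⟩ := exists_top hb (c := fun i => (c i : ℝ)) fun h0 => hx0 (by
    simp [fun i => show (c i : ℝ) = 0 from congrFun h0 i])
  refine le_trans ?_ hle
  have h1 : (1 : ℝ) ≤ (c l : ℝ) ^ 2 := by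
    have : (1 : ℤ) ≤ c l ^ 2 :=
      pow_pos (abs_pos.2 (Int.cast_ne_zero.1 hl)) 2 |>.trans_eq (sq_abs _)
    exact_mod_cast this
  exact (hl₀ l (mem_univ l)).trans (le_mul_of_one_le_left (orthSq_pos hb l).le h1)

/-- The potential is bounded below on the bases of a lattice. -/
theorem exists_potential_lower {b : Fin n → E} (hb : NonDeg b) :
    ∃ e : ℝ, 0 < e ∧ ∀ b' : Fin n → E, NonDeg b' → lattice b' = lattice b →
      e ≤ potential b' ^ 2 := by
  obtain ⟨r, hr, hmin⟩ := exists_lattice_min hb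
  refine ⟨∏ k : Fin n, r ^ (2 * ((k : ℕ) + 1)) / (4 / 3 : ℝ) ^ ((k : ℕ) * ((k : ℕ) + 1)),
    Finset.prod_pos fun k _ => div_pos (pow_pos hr _) (by positivity), fun b' hb' hlat => ?_⟩
  rw [potential_eq, ← Finset.prod_pow]
  refine Finset.prod_le_prod (fun k _ => by positivity) fun k _ => ?_
  obtain ⟨f, hf⟩ : ∃ f, f = b' ∘ Fin.castLE (Nat.succ_le_of_lt k.isLt) := ⟨_, rfl⟩
  rw [← hf]
  have hli : LinearIndependent ℝ f :=
    hf ▸ hb'.linearIndependent.comp _ (Fin.castLE_injective _)
  obtain ⟨v, hv0, hv⟩ := FA.Reduction.exists_short_vector _ _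
    (Matrix.posDef_gram_of_linearIndependent hli)
  obtain ⟨x, hx⟩ : ∃ x, x = ∑ a, (v a : ℝ) • f a := ⟨_, rfl⟩
  have hquad : FA.Reduction.quad (Matrix.gram ℝ f) (fun a => (v a : ℝ)) = ‖x‖ ^ 2 := by
    have := Matrix.star_dotProduct_gram_mulVec (𝕜 := ℝ) f (fun a => (v a : ℝ))
      fun a => (v a : ℝ)
    rw [star_trivial] at this
    rw [FA.Reduction.quad, this, hx, real_inner_self_eq_norm_sq]
  have hxmem : x ∈ lattice b := by
    rw [← hlat, hx]
    refine Submodule.sum_mem _ fun a _ => ?_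
    rw [Int.cast_smul_eq_zsmul, hf]
    exact Submodule.smul_mem _ _ (self_mem_lattice b' _)
  have hx0 : x ≠ 0 := fun h0 => hv0 (funext fun a => Int.cast_eq_zero.1
    ((Fintype.linearIndependent_iff.1 hli) _ (hx ▸ h0) a))
  rw [hquad] at hv
  rw [div_le_iff₀' (by positivity)]
  exact (pow_le_pow_left₀ hr.le (hmin x hxmem hx0) _).trans hv

/-- For an integral Gram matrix the potential is at least one. -/
theorem one_le_potential {b b' : Fin n → E} (hint : ∀ i j, ∃ m : ℤ, ⟪b i, b j⟫ = m)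
    (hb' : NonDeg b') (hlat : lattice b' = lattice b) : 1 ≤ potential b' := by
  have hG : ∀ x ∈ lattice b, ∀ y ∈ lattice b, ∃ m : ℤ, ⟪x, y⟫ = m := by
    intro x hx y hy
    obtain ⟨c, rfl⟩ := mem_lattice_iff.1 hx
    obtain ⟨d, rfl⟩ := mem_lattice_iff.1 hy
    choose G hG using hint
    refine ⟨∑ i, ∑ j, d i * (c j * G j i), ?_⟩
    simp only [sum_inner, inner_sum, real_inner_smul_left, real_inner_smul_right, hG]
    push_cast
    exact Finset.sum_congr rfl fun i _ => Finset.sum_congr rfl fun j _ => by ring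
  rw [potential_eq]
  refine Finset.one_le_prod fun k _ => ?_
  obtain ⟨f, hf⟩ : ∃ f, f = b' ∘ Fin.castLE (Nat.succ_le_of_lt k.isLt) := ⟨_, rfl⟩
  have hmem : ∀ a, f a ∈ lattice b := fun a => hlat ▸ hf ▸ self_mem_lattice b' _
  choose G hG' using fun a c => hG (f a) (hmem a) (f c) (hmem c)
  have hdet : (Matrix.gram ℝ f).det = ((Matrix.of G).det : ℤ) := by
    rw [← eq_intCast (Int.castRingHom ℝ) (Matrix.of G).det, RingHom.map_det]
    congr 1
    ext a c
    simp [hG']
  have hpos : 0 < (Matrix.gram ℝ f).det :=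
    (Matrix.posDef_gram_of_linearIndependent
      (hf ▸ hb'.linearIndependent.comp _ (Fin.castLE_injective _))).det_pos
  rw [← hf, hdet] at *
  have : (1 : ℤ) ≤ (Matrix.of G).det := by exact_mod_cast hpos
  exact_mod_cast this

theorem chain_spec {δ : ℝ} (hδ : 0 ≤ δ) {f : ℕ → Fin n → E} (h0 : NonDeg (f 0)) {N : ℕ}
    (hf : ∀ t < N, Step δ (f t) (f (t + 1))) :
    NonDeg (f N) ∧ lattice (f N) = lattice (f 0) ∧ potential (f N) ≤ δ ^ N * potential (f 0) := by
  induction N with
  | zero => exact ⟨h0, rfl, by simp⟩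
  | succ N ih =>
    obtain ⟨h1, h2, h3⟩ := ih fun t ht => hf t (Nat.lt_succ_of_lt ht)
    obtain ⟨k1, k2, k3⟩ := step_spec h1 (hf N (Nat.lt_succ_self N))
    refine ⟨k1, k2.trans h2, k3.trans ?_⟩
    rw [pow_succ', mul_assoc]
    exact mul_le_mul_of_nonneg_left h3 hδ

theorem exists_reduced {δ : ℝ} (hδ0 : 0 < δ) (hδ1 : δ < 1) {b : Fin n → E} (hb : NonDeg b) :
    ∃ b' : Fin n → E, NonDeg b' ∧ lattice b' = lattice b ∧ IsReduced δ b' := by
  by_contra hcon
  simp only [not_exists, not_and] at hcon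
  have key : ∀ N, ∃ b' : Fin n → E, NonDeg b' ∧ lattice b' = lattice b ∧
      potential b' ≤ δ ^ N * potential b := by
    intro N
    induction N with
    | zero => exact ⟨b, hb, rfl, by simp⟩
    | succ N ih =>
      obtain ⟨b₁, h1, h2, h3⟩ := ih
      obtain ⟨c, horth, hsr, hlat⟩ := exists_sizeReduced h1
      have hnot := hcon c (nonDeg_congr horth h1) (hlat.trans h2)
      simp only [IsReduced, Lovasz, not_and, not_forall, not_le] at hnot
      obtain ⟨i, j, hij, hfail⟩ := hnot hsr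
      have hstep : Step δ b₁ (c ∘ Equiv.swap i j) :=
        ⟨c, i, j, horth, hsr, hlat, hij, hfail, rfl⟩
      obtain ⟨k1, k2, k3⟩ := step_spec h1 hstep
      refine ⟨_, k1, k2.trans h2, k3.trans ?_⟩
      rw [pow_succ', mul_assoc]
      exact mul_le_mul_of_nonneg_left h3 hδ0.le
  obtain ⟨e, he, hlow⟩ := exists_potential_lower hb
  have hP := potential_pos hb
  obtain ⟨N, hN⟩ := exists_pow_lt_of_lt_one (div_pos he (pow_pos hP 2)) hδ1
  obtain ⟨b', h1, h2, h3⟩ := key N
  have h4 := (hlow b' h1 h2).trans (pow_le_pow_left₀ (potential_pos h1).le h3 2)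
  rw [mul_pow, lt_div_iff₀ (pow_pos hP 2)] at *
  have h5 : (δ ^ N) ^ 2 ≤ δ ^ N := pow_le_of_le_one (pow_nonneg hδ0.le _)
    (pow_le_one₀ hδ0.le hδ1.le) two_ne_zero
  linarith [mul_le_mul_of_nonneg_right h5 (pow_nonneg hP.le 2)]

end FA.LLL
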